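/-
S25 shared library (LIB), topic Chart (helper3648): elementary facts on the family two-chart
`𝒞.chart R` (`B_i = R ⊗[k] A_i`) and on the base-change morphism `𝒞.chartHom φ`:
evaluation on pure tensors, `id`/`comp` of `chartHom`, charts are `R`-free, restriction maps
are injective, `H⁰(O) = R` (`chart_glob`), the point `epsR` and its base change, and the
pushout property `B'_i = R' ⊗[R] B_i` of `chartHom` (universal-property form and
`Algebra.IsPushout` form).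
Imports the frozen `Defs` only.  No sorry.
-/
import Fermat.Agent.S25.Defs

set_option autoImplicit false
set_option linter.style.haveILetI false

universe u v

namespace Fermat.Agent.S25.Lib.Chart

open scoped TensorProduct
open Fermat.Agent.S25

variable {k : Type u} [Field k] (𝒞 : CurveData k)

/-! ### The chart `𝒞.chart R` on pure tensors -/

section chart

variable (R : Type u) [CommRing R] [Algebra k R]

theorem chart_f : (𝒞.chart R).f = (1 : R) ⊗ₜ[k] 𝒞.f := rfl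

theorem chart_g : (𝒞.chart R).g = (1 : R) ⊗ₜ[k] 𝒞.g := rfl

@[simp] theorem chart_r₁_tmul (c : R) (a : 𝒞.A₁) :
    (𝒞.chart R).r₁ (c ⊗ₜ[k] a) = c ⊗ₜ[k] 𝒞.r₁ a := by
  change Algebra.TensorProduct.map (AlgHom.id R R) 𝒞.r₁ (c ⊗ₜ[k] a) = _
  simp

@[simp] theorem chart_r₂_tmul (c : R) (a : 𝒞.A₂) :
    (𝒞.chart R).r₂ (c ⊗ₜ[k] a) = c ⊗ₜ[k] 𝒞.r₂ a := by
  change Algebra.TensorProduct.map (AlgHom.id R R) 𝒞.r₂ (c ⊗ₜ[k] a) = _
  simp

theorem chart_algebraMap₁ (c : R) :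
    algebraMap R (𝒞.chart R).B₁ c = c ⊗ₜ[k] (1 : 𝒞.A₁) := by
  change algebraMap R (R ⊗[k] 𝒞.A₁) c = _
  simp [Algebra.TensorProduct.algebraMap_apply]

theorem chart_algebraMap₂ (c : R) :
    algebraMap R (𝒞.chart R).B₂ c = c ⊗ₜ[k] (1 : 𝒞.A₂) := by
  change algebraMap R (R ⊗[k] 𝒞.A₂) c = _
  simp [Algebra.TensorProduct.algebraMap_apply]

theorem chart_algebraMap₁₂ (c : R) :
    algebraMap R (𝒞.chart R).B₁₂ c = c ⊗ₜ[k] (1 : 𝒞.A₁₂) := by
  change algebraMap R (R ⊗[k] 𝒞.A₁₂) c = _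
  simp [Algebra.TensorProduct.algebraMap_apply]

/-- Induction principle for elements of the first chart ring. -/
theorem chart_induction₁ {p : (𝒞.chart R).B₁ → Prop} (x : (𝒞.chart R).B₁)
    (tmul : ∀ (c : R) (a : 𝒞.A₁), p (c ⊗ₜ[k] a))
    (add : ∀ x y, p x → p y → p (x + y)) : p x := by
  change R ⊗[k] 𝒞.A₁ at x
  induction x using TensorProduct.induction_on with
  | zero => simpa using tmul 0 0
  | tmul c a => exact tmul c a
  | add x y hx hy => exact add x y hx hy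

/-- Induction principle for elements of the second chart ring. -/
theorem chart_induction₂ {p : (𝒞.chart R).B₂ → Prop} (x : (𝒞.chart R).B₂)
    (tmul : ∀ (c : R) (a : 𝒞.A₂), p (c ⊗ₜ[k] a))
    (add : ∀ x y, p x → p y → p (x + y)) : p x := by
  change R ⊗[k] 𝒞.A₂ at x
  induction x using TensorProduct.induction_on with
  | zero => simpa using tmul 0 0
  | tmul c a => exact tmul c a
  | add x y hx hy => exact add x y hx hy

/-- Induction principle for elements of the overlap chart ring. -/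
theorem chart_induction₁₂ {p : (𝒞.chart R).B₁₂ → Prop} (x : (𝒞.chart R).B₁₂)
    (tmul : ∀ (c : R) (a : 𝒞.A₁₂), p (c ⊗ₜ[k] a))
    (add : ∀ x y, p x → p y → p (x + y)) : p x := by
  change R ⊗[k] 𝒞.A₁₂ at x
  induction x using TensorProduct.induction_on with
  | zero => simpa using tmul 0 0
  | tmul c a => exact tmul c a
  | add x y hx hy => exact add x y hx hy

/-- The chart rings are free `R`-modules (`k` is a field). -/
theorem chart_free₁ : Module.Free R (𝒞.chart R).B₁ :=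
  inferInstanceAs (Module.Free R (R ⊗[k] 𝒞.A₁))

theorem chart_free₂ : Module.Free R (𝒞.chart R).B₂ :=
  inferInstanceAs (Module.Free R (R ⊗[k] 𝒞.A₂))

theorem chart_free₁₂ : Module.Free R (𝒞.chart R).B₁₂ :=
  inferInstanceAs (Module.Free R (R ⊗[k] 𝒞.A₁₂))

theorem chart_flat₁ : Module.Flat R (𝒞.chart R).B₁ :=
  haveI := chart_free₁ 𝒞 R; inferInstance

theorem chart_flat₂ : Module.Flat R (𝒞.chart R).B₂ :=
  haveI := chart_free₂ 𝒞 R; inferInstance

theorem chart_flat₁₂ : Module.Flat R (𝒞.chart R).B₁₂ :=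
  haveI := chart_free₁₂ 𝒞 R; inferInstance

theorem chart_projective₁ : Module.Projective R (𝒞.chart R).B₁ :=
  haveI := chart_free₁ 𝒞 R; inferInstance

theorem chart_projective₂ : Module.Projective R (𝒞.chart R).B₂ :=
  haveI := chart_free₂ 𝒞 R; inferInstance

theorem chart_projective₁₂ : Module.Projective R (𝒞.chart R).B₁₂ :=
  haveI := chart_free₁₂ 𝒞 R; inferInstance

/-- The restriction map of the first chart is injective. -/
theorem chart_r₁_injective : Function.Injective (𝒞.chart R).r₁ :=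
  chart_aux_inj R 𝒞.r₁ 𝒞.inj₁

/-- The restriction map of the second chart is injective. -/
theorem chart_r₂_injective : Function.Injective (𝒞.chart R).r₂ :=
  chart_aux_inj R 𝒞.r₂ 𝒞.inj₂

end chart

/-! ### `H⁰(O) = R` on the family chart -/

section glob

variable (R : Type u) [CommRing R] [Algebra k R]

/-- `R → R ⊗[k] A` is injective for a nonzero `k`-algebra `A`. -/
theorem algebraMap_tensor_injective (A : Type v) [CommRing A] [Algebra k A] [Nontrivial A] :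
    Function.Injective (algebraMap R (R ⊗[k] A)) := by
  have hφ : Function.Injective (Algebra.linearMap k A) := (algebraMap k A).injective
  have hinj : Function.Injective ((Algebra.linearMap k A).lTensor R) :=
    Module.Flat.lTensor_preserves_injective_linearMap _ hφ
  intro a b hab
  have : (Algebra.linearMap k A).lTensor R (a ⊗ₜ[k] (1 : k)) =
      (Algebra.linearMap k A).lTensor R (b ⊗ₜ[k] (1 : k)) := by
    simpa [Algebra.TensorProduct.algebraMap_apply] using hab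
  have h3 := congrArg (TensorProduct.rid k R) (hinj this)
  simpa using h3

theorem chart_algebraMap_injective₁ : Function.Injective (algebraMap R (𝒞.chart R).B₁) :=
  haveI := 𝒞.dom₁
  algebraMap_tensor_injective R 𝒞.A₁

theorem chart_algebraMap_injective₂ : Function.Injective (algebraMap R (𝒞.chart R).B₂) :=
  haveI := 𝒞.dom₂
  algebraMap_tensor_injective R 𝒞.A₂

theorem chart_algebraMap_injective₁₂ : Function.Injective (algebraMap R (𝒞.chart R).B₁₂) := by
  intro a b hab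
  apply chart_algebraMap_injective₁ 𝒞 R
  apply chart_r₁_injective 𝒞 R
  rw [AlgHom.commutes, AlgHom.commutes, hab]

/-- Linear form of `H⁰(O) = R`: flat base change of `A₁ ∩ A₂ = k` (for any `k`-module `M`). -/
theorem exists_tmul_one_of_lTensor_eq (M : Type v) [AddCommGroup M] [Module k M]
    (x₁ : M ⊗[k] 𝒞.A₁) (x₂ : M ⊗[k] 𝒞.A₂)
    (h : 𝒞.r₁.toLinearMap.lTensor M x₁ = 𝒞.r₂.toLinearMap.lTensor M x₂) :
    ∃ c : M, x₁ = c ⊗ₜ[k] (1 : 𝒞.A₁) ∧ x₂ = c ⊗ₜ[k] (1 : 𝒞.A₂) := by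
  classical
  let q : 𝒞.A₁₂ →ₗ[k] 𝒞.A₁₂ ⧸ LinearMap.range 𝒞.r₂.toLinearMap := Submodule.mkQ _
  let φ : k →ₗ[k] 𝒞.A₁ := Algebra.linearMap k 𝒞.A₁
  let ψ : 𝒞.A₁ →ₗ[k] 𝒞.A₁₂ ⧸ LinearMap.range 𝒞.r₂.toLinearMap := q.comp 𝒞.r₁.toLinearMap
  have hex : Function.Exact φ ψ := by
    intro a
    constructor
    · intro ha
      have : 𝒞.r₁ a ∈ LinearMap.range 𝒞.r₂.toLinearMap := by
        simpa [ψ, q, Submodule.Quotient.mk_eq_zero] using ha
      obtain ⟨a₂, ha₂⟩ := this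
      obtain ⟨c, hc⟩ := 𝒞.glob a a₂ ha₂.symm
      exact ⟨c, hc.symm⟩
    · rintro ⟨c, rfl⟩
      have : 𝒞.r₁ (algebraMap k 𝒞.A₁ c) = 𝒞.r₂ (algebraMap k 𝒞.A₂ c) := by simp
      simp only [ψ, q, φ, LinearMap.comp_apply, Algebra.linearMap_apply, AlgHom.toLinearMap_apply,
        Submodule.mkQ_apply, Submodule.Quotient.mk_eq_zero]
      exact ⟨algebraMap k 𝒞.A₂ c, this.symm⟩
  have hex' : Function.Exact (φ.lTensor M) (ψ.lTensor M) := Module.Flat.lTensor_exact M hex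
  have hq : q.comp 𝒞.r₂.toLinearMap = 0 := by
    ext a
    simp only [q, LinearMap.comp_apply, Submodule.mkQ_apply, LinearMap.zero_apply,
      Submodule.Quotient.mk_eq_zero]
    exact ⟨a, rfl⟩
  have h0 : ψ.lTensor M x₁ = 0 := by
    have : ψ.lTensor M x₁ = q.lTensor M (𝒞.r₁.toLinearMap.lTensor M x₁) := by
      simp only [ψ, LinearMap.lTensor_comp, LinearMap.comp_apply]
    rw [this, h, ← LinearMap.comp_apply, ← LinearMap.lTensor_comp, hq, LinearMap.lTensor_zero,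
      LinearMap.zero_apply]
  obtain ⟨y, hy⟩ := (hex' x₁).mp h0
  have hy' : y = (TensorProduct.rid k M y) ⊗ₜ[k] (1 : k) := by
    conv_lhs => rw [← (TensorProduct.rid k M).symm_apply_apply y]
    rw [TensorProduct.rid_symm_apply]
  have hx₁ : x₁ = (TensorProduct.rid k M y) ⊗ₜ[k] (1 : 𝒞.A₁) := by
    rw [← hy, hy']
    simp [φ]
  refine ⟨TensorProduct.rid k M y, hx₁, ?_⟩
  have hinj : Function.Injective (𝒞.r₂.toLinearMap.lTensor M) :=
    Module.Flat.lTensor_preserves_injective_linearMap _ 𝒞.inj₂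
  apply hinj
  rw [← h, hx₁]
  simp

/-- **`H⁰(C_R, O) = R`**: sections of the two charts of `𝒞.chart R` which agree on the overlap
come from a unique element of `R`. -/
theorem chart_glob (b₁ : (𝒞.chart R).B₁) (b₂ : (𝒞.chart R).B₂)
    (h : (𝒞.chart R).r₁ b₁ = (𝒞.chart R).r₂ b₂) :
    ∃ c : R, b₁ = algebraMap R (𝒞.chart R).B₁ c ∧ b₂ = algebraMap R (𝒞.chart R).B₂ c := by
  have e₁ : ∀ z : R ⊗[k] 𝒞.A₁, 𝒞.r₁.toLinearMap.lTensor R z =
      Algebra.TensorProduct.map (AlgHom.id R R) 𝒞.r₁ z := by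
    intro z
    induction z using TensorProduct.induction_on with
    | zero => simp
    | tmul r a => simp
    | add a b ha hb => simp only [map_add, ha, hb]
  have e₂ : ∀ z : R ⊗[k] 𝒞.A₂, 𝒞.r₂.toLinearMap.lTensor R z =
      Algebra.TensorProduct.map (AlgHom.id R R) 𝒞.r₂ z := by
    intro z
    induction z using TensorProduct.induction_on with
    | zero => simp
    | tmul r a => simp
    | add a b ha hb => simp only [map_add, ha, hb]
  have h' : 𝒞.r₁.toLinearMap.lTensor R b₁ = 𝒞.r₂.toLinearMap.lTensor R b₂ :=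
    (e₁ b₁).trans (h.trans (e₂ b₂).symm)
  obtain ⟨c, h₁, h₂⟩ := exists_tmul_one_of_lTensor_eq 𝒞 R b₁ b₂ h'
  exact ⟨c, by rw [chart_algebraMap₁]; exact h₁, by rw [chart_algebraMap₂]; exact h₂⟩

/-- Uniqueness in `chart_glob`. -/
theorem chart_glob_existsUnique (b₁ : (𝒞.chart R).B₁) (b₂ : (𝒞.chart R).B₂)
    (h : (𝒞.chart R).r₁ b₁ = (𝒞.chart R).r₂ b₂) :
    ∃! c : R, b₁ = algebraMap R (𝒞.chart R).B₁ c ∧ b₂ = algebraMap R (𝒞.chart R).B₂ c := by
  obtain ⟨c, h₁, h₂⟩ := chart_glob 𝒞 R b₁ b₂ h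
  refine ⟨c, ⟨h₁, h₂⟩, ?_⟩
  rintro c' ⟨h₁', -⟩
  exact chart_algebraMap_injective₁ 𝒞 R (h₁'.symm.trans h₁)

/-- Global sections of the structure sheaf: `H⁰(O) ≅ R`, as a statement on `H0` of the unit. -/
theorem unit_H0_eq (x : (𝒞.chart R).B₁ × (𝒞.chart R).B₂)
    (hx : (𝒞.chart R).r₁ x.1 = (𝒞.chart R).r₂ x.2) :
    ∃! c : R, x = (algebraMap R (𝒞.chart R).B₁ c, algebraMap R (𝒞.chart R).B₂ c) := by
  obtain ⟨c, ⟨h₁, h₂⟩, huniq⟩ := chart_glob_existsUnique 𝒞 R x.1 x.2 hx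
  refine ⟨c, Prod.ext h₁ h₂, ?_⟩
  intro c' hc'
  exact huniq c' ⟨congrArg Prod.fst hc', congrArg Prod.snd hc'⟩

end glob

/-! ### The base-change morphism `𝒞.chartHom φ` -/

section chartHom

variable {R R' R'' : Type u} [CommRing R] [Algebra k R] [CommRing R'] [Algebra k R']
  [CommRing R''] [Algebra k R'']

@[simp] theorem chartHom_ψ₁_tmul (φ : R →ₐ[k] R') (c : R) (a : 𝒞.A₁) :
    (𝒞.chartHom φ).ψ₁ (c ⊗ₜ[k] a) = φ c ⊗ₜ[k] a := by
  change Algebra.TensorProduct.map φ (AlgHom.id k 𝒞.A₁) (c ⊗ₜ[k] a) = _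
  simp

@[simp] theorem chartHom_ψ₂_tmul (φ : R →ₐ[k] R') (c : R) (a : 𝒞.A₂) :
    (𝒞.chartHom φ).ψ₂ (c ⊗ₜ[k] a) = φ c ⊗ₜ[k] a := by
  change Algebra.TensorProduct.map φ (AlgHom.id k 𝒞.A₂) (c ⊗ₜ[k] a) = _
  simp

@[simp] theorem chartHom_ψ₁₂_tmul (φ : R →ₐ[k] R') (c : R) (a : 𝒞.A₁₂) :
    (𝒞.chartHom φ).ψ₁₂ (c ⊗ₜ[k] a) = φ c ⊗ₜ[k] a := by
  change Algebra.TensorProduct.map φ (AlgHom.id k 𝒞.A₁₂) (c ⊗ₜ[k] a) = _
  simp

theorem chartHom_id_ψ₁ (b : (𝒞.chart R).B₁) : (𝒞.chartHom (AlgHom.id k R)).ψ₁ b = b := by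
  induction b using chart_induction₁ with
  | tmul c a => simp
  | add x y hx hy => rw [map_add, hx, hy]

theorem chartHom_id_ψ₂ (b : (𝒞.chart R).B₂) : (𝒞.chartHom (AlgHom.id k R)).ψ₂ b = b := by
  induction b using chart_induction₂ with
  | tmul c a => simp
  | add x y hx hy => rw [map_add, hx, hy]

theorem chartHom_id_ψ₁₂ (b : (𝒞.chart R).B₁₂) : (𝒞.chartHom (AlgHom.id k R)).ψ₁₂ b = b := by
  induction b using chart_induction₁₂ with
  | tmul c a => simp
  | add x y hx hy => rw [map_add, hx, hy]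

theorem chartHom_id_ψ₁_eq : (𝒞.chartHom (AlgHom.id k R)).ψ₁ = RingHom.id _ :=
  RingHom.ext (chartHom_id_ψ₁ 𝒞)

theorem chartHom_id_ψ₂_eq : (𝒞.chartHom (AlgHom.id k R)).ψ₂ = RingHom.id _ :=
  RingHom.ext (chartHom_id_ψ₂ 𝒞)

theorem chartHom_id_ψ₁₂_eq : (𝒞.chartHom (AlgHom.id k R)).ψ₁₂ = RingHom.id _ :=
  RingHom.ext (chartHom_id_ψ₁₂ 𝒞)

theorem chartHom_comp_ψ₁ (φ : R →ₐ[k] R') (ψ : R' →ₐ[k] R'') (b : (𝒞.chart R).B₁) :
    (𝒞.chartHom (ψ.comp φ)).ψ₁ b = (𝒞.chartHom ψ).ψ₁ ((𝒞.chartHom φ).ψ₁ b) := by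
  induction b using chart_induction₁ with
  | tmul c a => simp
  | add x y hx hy => rw [map_add, map_add, map_add, hx, hy]

theorem chartHom_comp_ψ₂ (φ : R →ₐ[k] R') (ψ : R' →ₐ[k] R'') (b : (𝒞.chart R).B₂) :
    (𝒞.chartHom (ψ.comp φ)).ψ₂ b = (𝒞.chartHom ψ).ψ₂ ((𝒞.chartHom φ).ψ₂ b) := by
  induction b using chart_induction₂ with
  | tmul c a => simp
  | add x y hx hy => rw [map_add, map_add, map_add, hx, hy]

theorem chartHom_comp_ψ₁₂ (φ : R →ₐ[k] R') (ψ : R' →ₐ[k] R'') (b : (𝒞.chart R).B₁₂) :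
    (𝒞.chartHom (ψ.comp φ)).ψ₁₂ b = (𝒞.chartHom ψ).ψ₁₂ ((𝒞.chartHom φ).ψ₁₂ b) := by
  induction b using chart_induction₁₂ with
  | tmul c a => simp
  | add x y hx hy => rw [map_add, map_add, map_add, hx, hy]

theorem chartHom_comp_ψ₁_eq (φ : R →ₐ[k] R') (ψ : R' →ₐ[k] R'') :
    (𝒞.chartHom (ψ.comp φ)).ψ₁ = ((𝒞.chartHom ψ).ψ₁).comp ((𝒞.chartHom φ).ψ₁) :=
  RingHom.ext (chartHom_comp_ψ₁ 𝒞 φ ψ)

theorem chartHom_comp_ψ₂_eq (φ : R →ₐ[k] R') (ψ : R' →ₐ[k] R'') :
    (𝒞.chartHom (ψ.comp φ)).ψ₂ = ((𝒞.chartHom ψ).ψ₂).comp ((𝒞.chartHom φ).ψ₂) :=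
  RingHom.ext (chartHom_comp_ψ₂ 𝒞 φ ψ)

theorem chartHom_comp_ψ₁₂_eq (φ : R →ₐ[k] R') (ψ : R' →ₐ[k] R'') :
    (𝒞.chartHom (ψ.comp φ)).ψ₁₂ = ((𝒞.chartHom ψ).ψ₁₂).comp ((𝒞.chartHom φ).ψ₁₂) :=
  RingHom.ext (chartHom_comp_ψ₁₂ 𝒞 φ ψ)

/-- `chartHom` of an isomorphism is bijective on the charts. -/
theorem chartHom_ψ₁_bijective_of_bijective (φ : R →ₐ[k] R') (hφ : Function.Bijective φ) :
    Function.Bijective (𝒞.chartHom φ).ψ₁ := by
  let e : R ≃ₐ[k] R' := AlgEquiv.ofBijective φ hφ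
  have h1 : ∀ b, (𝒞.chartHom (e.symm : R' →ₐ[k] R)).ψ₁ ((𝒞.chartHom φ).ψ₁ b) = b := by
    intro b
    rw [← chartHom_comp_ψ₁]
    have : (e.symm : R' →ₐ[k] R).comp φ = AlgHom.id k R := by
      ext x; exact e.symm_apply_apply x
    rw [this, chartHom_id_ψ₁]
  have h2 : ∀ b, (𝒞.chartHom φ).ψ₁ ((𝒞.chartHom (e.symm : R' →ₐ[k] R)).ψ₁ b) = b := by
    intro b
    rw [← chartHom_comp_ψ₁]
    have : φ.comp (e.symm : R' →ₐ[k] R) = AlgHom.id k R' := by
      ext x; exact e.apply_symm_apply x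
    rw [this, chartHom_id_ψ₁]
  exact ⟨Function.LeftInverse.injective h1, Function.RightInverse.surjective h2⟩

end chartHom

/-! ### The rigidifying point `epsR` -/

section eps

variable (R : Type u) [CommRing R] [Algebra k R]

@[simp] theorem epsR_tmul (c : R) (a : 𝒞.A₁) :
    𝒞.epsR R (c ⊗ₜ[k] a) = c * algebraMap k R (𝒞.ε a) := by
  change Algebra.TensorProduct.lift (AlgHom.id R R) ((Algebra.ofId k R).comp 𝒞.ε)
    (fun _ _ => Commute.all _ _) (c ⊗ₜ[k] a) = _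
  simp [Algebra.ofId_apply]

theorem epsR_algebraMap (c : R) : 𝒞.epsR R (algebraMap R (𝒞.chart R).B₁ c) = c :=
  (𝒞.epsR R).commutes c

theorem epsR_surjective : Function.Surjective (𝒞.epsR R) :=
  fun c => ⟨algebraMap R (𝒞.chart R).B₁ c, epsR_algebraMap 𝒞 R c⟩

variable {R} {R' : Type u} [CommRing R'] [Algebra k R']

/-- The point `ε` is compatible with base change. -/
theorem epsR_chartHom (φ : R →ₐ[k] R') (b : (𝒞.chart R).B₁) :
    𝒞.epsR R' ((𝒞.chartHom φ).ψ₁ b) = φ (𝒞.epsR R b) := by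
  induction b using chart_induction₁ with
  | tmul c a => simp
  | add x y hx hy => rw [map_add, map_add, map_add, map_add, hx, hy]

end eps

/-! ### `chartHom φ` is a pushout: `B'_i = R' ⊗[R] B_i` -/

section pushout

variable {R R' : Type u} [CommRing R] [Algebra k R] [CommRing R'] [Algebra k R']

/-- Universal property of `R' ⊗[k] A = R' ⊗[R] (R ⊗[k] A)`: an additive map out of `R ⊗[k] A`
into an `R'`-module which is `φ`-semilinear over `R` extends uniquely to an `R'`-linear map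
out of `R' ⊗[k] A`. -/
theorem tensor_map_univ (A : Type u) [CommRing A] [Algebra k A] (φ : R →ₐ[k] R')
    (Q : Type v) [AddCommMonoid Q] [Module R' Q] (h : R ⊗[k] A →+ Q)
    (hh : ∀ (c : R) (b : R ⊗[k] A), h (algebraMap R (R ⊗[k] A) c * b) = φ c • h b) :
    ∃! h' : R' ⊗[k] A →ₗ[R'] Q,
      ∀ b, h' (Algebra.TensorProduct.map φ (AlgHom.id k A) b) = h b := by
  have hk : ∀ (r : k) (a : A), h ((1 : R) ⊗ₜ[k] (r • a)) =
      algebraMap k R' r • h ((1 : R) ⊗ₜ[k] a) := by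
    intro r a
    have : ((1 : R) ⊗ₜ[k] (r • a) : R ⊗[k] A) =
        algebraMap R (R ⊗[k] A) (algebraMap k R r) * ((1 : R) ⊗ₜ[k] a) := by
      rw [Algebra.TensorProduct.algebraMap_apply, Algebra.TensorProduct.tmul_mul_tmul,
        TensorProduct.tmul_smul, TensorProduct.smul_tmul', Algebra.algebraMap_self,
        RingHom.id_apply, mul_one, one_mul, Algebra.smul_def, mul_one]
    rw [this, hh, AlgHom.commutes]
  let f : R' →+ A →+ Q :=
    { toFun := fun c' =>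
        { toFun := fun a => c' • h ((1 : R) ⊗ₜ[k] a)
          map_zero' := by simp
          map_add' := fun a b => by rw [TensorProduct.tmul_add, map_add, smul_add] }
      map_zero' := by ext a; simp
      map_add' := fun c c' => by ext a; simp [add_smul] }
  have hf : ∀ (r : k) (c' : R') (a : A), f (r • c') a = f c' (r • a) := by
    intro r c' a
    change (r • c') • h ((1 : R) ⊗ₜ[k] a) = c' • h ((1 : R) ⊗ₜ[k] (r • a))
    rw [hk, Algebra.smul_def, mul_comm, mul_smul]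
  let F : R' ⊗[k] A →+ Q := TensorProduct.liftAddHom f hf
  have hF : ∀ (c' : R') (a : A), F (c' ⊗ₜ[k] a) = c' • h ((1 : R) ⊗ₜ[k] a) := fun c' a => rfl
  let h' : R' ⊗[k] A →ₗ[R'] Q :=
    { toFun := F
      map_add' := F.map_add
      map_smul' := fun c x => by
        induction x using TensorProduct.induction_on with
        | zero => simp
        | tmul c' a =>
          rw [TensorProduct.smul_tmul', hF, hF, smul_eq_mul, mul_smul, RingHom.id_apply]
        | add x y hx hy =>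
          simp only [RingHom.id_apply] at hx hy ⊢
          rw [smul_add, map_add, hx, hy, map_add, smul_add] }
  have hh' : ∀ b, h' (Algebra.TensorProduct.map φ (AlgHom.id k A) b) = h b := by
    intro b
    induction b using TensorProduct.induction_on with
    | zero => simp
    | tmul c a =>
      rw [Algebra.TensorProduct.map_tmul, AlgHom.id_apply]
      change F (φ c ⊗ₜ[k] a) = _
      rw [hF, ← hh, Algebra.TensorProduct.algebraMap_apply, Algebra.TensorProduct.tmul_mul_tmul,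
        Algebra.algebraMap_self, RingHom.id_apply, mul_one, one_mul]
    | add x y hx hy => rw [map_add, map_add, hx, hy, map_add]
  refine ⟨h', hh', ?_⟩
  intro h'' hh''
  ext x
  induction x using TensorProduct.induction_on with
  | zero => simp
  | tmul c' a =>
    have e : (c' ⊗ₜ[k] a : R' ⊗[k] A) =
        c' • Algebra.TensorProduct.map φ (AlgHom.id k A) ((1 : R) ⊗ₜ[k] a) := by
      rw [Algebra.TensorProduct.map_tmul, AlgHom.id_apply, map_one, TensorProduct.smul_tmul',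
        smul_eq_mul, mul_one]
    rw [e, map_smul, map_smul, hh'', hh']
  | add x y hx hy => rw [map_add, map_add, hx, hy]

/-- Pushout property of `chartHom φ` on the first chart: `B'₁ = R' ⊗[R] B₁`. -/
theorem chartHom_univ₁ (φ : R →ₐ[k] R') (Q : Type v) [AddCommMonoid Q] [Module R' Q]
    (h : (𝒞.chart R).B₁ →+ Q)
    (hh : ∀ (c : R) (b : (𝒞.chart R).B₁), h (algebraMap R (𝒞.chart R).B₁ c * b) = φ c • h b) :
    ∃! h' : (𝒞.chart R').B₁ →ₗ[R'] Q, ∀ b, h' ((𝒞.chartHom φ).ψ₁ b) = h b :=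
  tensor_map_univ 𝒞.A₁ φ Q h hh

/-- Pushout property of `chartHom φ` on the second chart: `B'₂ = R' ⊗[R] B₂`. -/
theorem chartHom_univ₂ (φ : R →ₐ[k] R') (Q : Type v) [AddCommMonoid Q] [Module R' Q]
    (h : (𝒞.chart R).B₂ →+ Q)
    (hh : ∀ (c : R) (b : (𝒞.chart R).B₂), h (algebraMap R (𝒞.chart R).B₂ c * b) = φ c • h b) :
    ∃! h' : (𝒞.chart R').B₂ →ₗ[R'] Q, ∀ b, h' ((𝒞.chartHom φ).ψ₂ b) = h b :=
  tensor_map_univ 𝒞.A₂ φ Q h hh

/-- Pushout property of `chartHom φ` on the overlap: `B'₁₂ = R' ⊗[R] B₁₂`. -/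
theorem chartHom_univ₁₂ (φ : R →ₐ[k] R') (Q : Type v) [AddCommMonoid Q] [Module R' Q]
    (h : (𝒞.chart R).B₁₂ →+ Q)
    (hh : ∀ (c : R) (b : (𝒞.chart R).B₁₂), h (algebraMap R (𝒞.chart R).B₁₂ c * b) = φ c • h b) :
    ∃! h' : (𝒞.chart R').B₁₂ →ₗ[R'] Q, ∀ b, h' ((𝒞.chartHom φ).ψ₁₂ b) = h b :=
  tensor_map_univ 𝒞.A₁₂ φ Q h hh

/-- A square of rings whose top arrow has the universal property of the base change is a
pushout square in the sense of Mathlib (`B' = R' ⊗[R] B`). -/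
theorem isPushout_of_univ {R R' B B' : Type u} [CommRing R] [CommRing R'] [CommRing B]
    [CommRing B'] [Algebra R R'] [Algebra R B] [Algebra B B'] [Algebra R' B'] [Algebra R B']
    [IsScalarTower R B B'] [IsScalarTower R R' B']
    (huniv : ∀ (Q : Type u) [AddCommMonoid Q] [Module R' Q] (h : B →+ Q),
      (∀ (c : R) (b : B), h (algebraMap R B c * b) = algebraMap R R' c • h b) →
        ∃! h' : B' →ₗ[R'] Q, ∀ b, h' (algebraMap B B' b) = h b) :
    Algebra.IsPushout R R' B B' := by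
  refine ⟨IsBaseChange.of_lift_unique _ ?_⟩
  intro Q _ _ _ _ g
  obtain ⟨h', hh', huniq⟩ := huniv Q g.toAddMonoidHom (fun c b => by
    change g (algebraMap R B c * b) = algebraMap R R' c • g b
    rw [← Algebra.smul_def, map_smul, algebraMap_smul])
  refine ⟨h', ?_, ?_⟩
  · ext b
    exact hh' b
  · intro h'' hh''
    apply huniq
    intro b
    exact congrArg (fun l : B →ₗ[R] Q => l b) hh''

/-- `Algebra.IsPushout` form of the pushout property of `chartHom φ` (first chart), for the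
algebra structures `R → R'` given by `φ`, `B₁ → B'₁` given by `(𝒞.chartHom φ).ψ₁` and
`R → B'₁` the composite. -/
theorem chartHom_isPushout₁ (φ : R →ₐ[k] R') :
    letI : Algebra R R' := (φ : R →+* R').toAlgebra
    letI : Algebra (𝒞.chart R).B₁ (𝒞.chart R').B₁ := (𝒞.chartHom φ).ψ₁.toAlgebra
    letI : Algebra R (𝒞.chart R').B₁ :=
      ((algebraMap R' (𝒞.chart R').B₁).comp (φ : R →+* R')).toAlgebra
    haveI : IsScalarTower R (𝒞.chart R).B₁ (𝒞.chart R').B₁ :=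
      IsScalarTower.of_algebraMap_eq (fun c => ((𝒞.chartHom φ).alg₁ c).symm)
    haveI : IsScalarTower R R' (𝒞.chart R').B₁ := IsScalarTower.of_algebraMap_eq (fun _ => rfl)
    Algebra.IsPushout R R' (𝒞.chart R).B₁ (𝒞.chart R').B₁ := by
  letI : Algebra R R' := (φ : R →+* R').toAlgebra
  letI : Algebra (𝒞.chart R).B₁ (𝒞.chart R').B₁ := (𝒞.chartHom φ).ψ₁.toAlgebra
  letI : Algebra R (𝒞.chart R').B₁ :=
    ((algebraMap R' (𝒞.chart R').B₁).comp (φ : R →+* R')).toAlgebra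
  haveI : IsScalarTower R (𝒞.chart R).B₁ (𝒞.chart R').B₁ :=
    IsScalarTower.of_algebraMap_eq (fun c => ((𝒞.chartHom φ).alg₁ c).symm)
  haveI : IsScalarTower R R' (𝒞.chart R').B₁ := IsScalarTower.of_algebraMap_eq (fun _ => rfl)
  exact isPushout_of_univ (fun Q _ _ h hh => chartHom_univ₁ 𝒞 φ Q h hh)

/-- `Algebra.IsPushout` form of the pushout property of `chartHom φ` (second chart). -/
theorem chartHom_isPushout₂ (φ : R →ₐ[k] R') :
    letI : Algebra R R' := (φ : R →+* R').toAlgebra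
    letI : Algebra (𝒞.chart R).B₂ (𝒞.chart R').B₂ := (𝒞.chartHom φ).ψ₂.toAlgebra
    letI : Algebra R (𝒞.chart R').B₂ :=
      ((algebraMap R' (𝒞.chart R').B₂).comp (φ : R →+* R')).toAlgebra
    haveI : IsScalarTower R (𝒞.chart R).B₂ (𝒞.chart R').B₂ :=
      IsScalarTower.of_algebraMap_eq (fun c => ((𝒞.chartHom φ).alg₂ c).symm)
    haveI : IsScalarTower R R' (𝒞.chart R').B₂ := IsScalarTower.of_algebraMap_eq (fun _ => rfl)
    Algebra.IsPushout R R' (𝒞.chart R).B₂ (𝒞.chart R').B₂ := by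
  letI : Algebra R R' := (φ : R →+* R').toAlgebra
  letI : Algebra (𝒞.chart R).B₂ (𝒞.chart R').B₂ := (𝒞.chartHom φ).ψ₂.toAlgebra
  letI : Algebra R (𝒞.chart R').B₂ :=
    ((algebraMap R' (𝒞.chart R').B₂).comp (φ : R →+* R')).toAlgebra
  haveI : IsScalarTower R (𝒞.chart R).B₂ (𝒞.chart R').B₂ :=
    IsScalarTower.of_algebraMap_eq (fun c => ((𝒞.chartHom φ).alg₂ c).symm)
  haveI : IsScalarTower R R' (𝒞.chart R').B₂ := IsScalarTower.of_algebraMap_eq (fun _ => rfl)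
  exact isPushout_of_univ (fun Q _ _ h hh => chartHom_univ₂ 𝒞 φ Q h hh)

/-- `Algebra.IsPushout` form of the pushout property of `chartHom φ` (overlap). -/
theorem chartHom_isPushout₁₂ (φ : R →ₐ[k] R') :
    letI : Algebra R R' := (φ : R →+* R').toAlgebra
    letI : Algebra (𝒞.chart R).B₁₂ (𝒞.chart R').B₁₂ := (𝒞.chartHom φ).ψ₁₂.toAlgebra
    letI : Algebra R (𝒞.chart R').B₁₂ :=
      ((algebraMap R' (𝒞.chart R').B₁₂).comp (φ : R →+* R')).toAlgebra
    haveI : IsScalarTower R (𝒞.chart R).B₁₂ (𝒞.chart R').B₁₂ :=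
      IsScalarTower.of_algebraMap_eq (fun c => ((𝒞.chartHom φ).alg₁₂ c).symm)
    haveI : IsScalarTower R R' (𝒞.chart R').B₁₂ := IsScalarTower.of_algebraMap_eq (fun _ => rfl)
    Algebra.IsPushout R R' (𝒞.chart R).B₁₂ (𝒞.chart R').B₁₂ := by
  letI : Algebra R R' := (φ : R →+* R').toAlgebra
  letI : Algebra (𝒞.chart R).B₁₂ (𝒞.chart R').B₁₂ := (𝒞.chartHom φ).ψ₁₂.toAlgebra
  letI : Algebra R (𝒞.chart R').B₁₂ :=
    ((algebraMap R' (𝒞.chart R').B₁₂).comp (φ : R →+* R')).toAlgebra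
  haveI : IsScalarTower R (𝒞.chart R).B₁₂ (𝒞.chart R').B₁₂ :=
    IsScalarTower.of_algebraMap_eq (fun c => ((𝒞.chartHom φ).alg₁₂ c).symm)
  haveI : IsScalarTower R R' (𝒞.chart R').B₁₂ := IsScalarTower.of_algebraMap_eq (fun _ => rfl)
  exact isPushout_of_univ (fun Q _ _ h hh => chartHom_univ₁₂ 𝒞 φ Q h hh)

end pushout

end Fermat.Agent.S25.Lib.Chart
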